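/-
S41 / C7c [PD-DICT], concrete instance (helper51) — part 1: generic crossed-hom calculus in RAW
pointwise form (interface-agnostic: unfolds to helper22's `CuspSum22.IsCoc` and to helper84's
cocycles, action `(g m) ω = m (g⁻¹ • ω)`), and the "orbit-sum" lemmas for one element `g`.

* `IsCoc51 z`           : `∀ g h ω, z (g * h) ω = z g ω + z h (g⁻¹ • ω)`;
* `IsCoc51.conj_apply`  : `z (h g h⁻¹) ω₀ = z g (h⁻¹ ω₀)` whenever `g` fixes `h⁻¹ ω₀` (NO vanishing
  hypothesis on `g`);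
* `IsCoc51.map_pow_apply`: `z (g ^ n) ω = ∑ k < n, z g ((g ^ k)⁻¹ • ω)`;
* `sum_range_eq_zero_of_pow_smul_eq` : if the sum of `v` over ONE period of `ω` vanishes, so does the
  sum over `d` steps for every `d` with `g ^ d • ω = ω` (no torsion-freeness needed);
* `exists_primitive_of_period_sums` : (finite `Ω`) if all period sums of `v` vanish then
  `v ω = n (g⁻¹ • ω) - n ω` for some `n` (`ker N_g = range (g - 1)` on a permutation module, over
  any abelian group, fixed points allowed).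
-/
import Mathlib

set_option autoImplicit false

namespace Fermat.Agent.S41.PDInst51

open Finset

variable {G : Type*} [Group G] {Ω : Type*} [MulAction G Ω] {A : Type*} [AddCommGroup A]

/-- crossed homs `G → (Ω → A)` for the action `(g m) ω = m (g⁻¹ • ω)`, raw pointwise form. -/
def IsCoc51 (z : G → Ω → A) : Prop := ∀ g h ω, z (g * h) ω = z g ω + z h (g⁻¹ • ω)

namespace IsCoc51

variable {z : G → Ω → A}

theorem map_one (hz : IsCoc51 z) (ω : Ω) : z 1 ω = 0 := by
  have h := hz 1 1 ω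
  rw [mul_one, inv_one, one_smul] at h
  have h2 : z 1 ω + 0 = z 1 ω + z 1 ω := by rw [add_zero]; exact h
  exact (add_left_cancel h2).symm

theorem map_inv (hz : IsCoc51 z) (g : G) (ω : Ω) : z g⁻¹ ω = - z g (g • ω) := by
  have h := hz g⁻¹ g ω
  rw [inv_mul_cancel, hz.map_one, inv_inv] at h
  exact eq_neg_of_add_eq_zero_left h.symm

/-- conjugation: `z (h g h⁻¹) ω₀ = z g (h⁻¹ ω₀)` as soon as `g` fixes `h⁻¹ ω₀`. -/
theorem conj_apply (hz : IsCoc51 z) (g h : G) (ω₀ : Ω) (hfix : g • (h⁻¹ • ω₀) = h⁻¹ • ω₀) :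
    z (h * g * h⁻¹) ω₀ = z g (h⁻¹ • ω₀) := by
  have hfix' : g⁻¹ • (h⁻¹ • ω₀) = h⁻¹ • ω₀ := by rw [inv_smul_eq_iff, hfix]
  rw [mul_assoc, hz h (g * h⁻¹) ω₀, hz g h⁻¹ (h⁻¹ • ω₀), hfix', hz.map_inv h (h⁻¹ • ω₀),
    smul_inv_smul]
  abel

theorem map_pow_apply (hz : IsCoc51 z) (g : G) (n : ℕ) (ω : Ω) :
    z (g ^ n) ω = ∑ k ∈ range n, z g ((g ^ k)⁻¹ • ω) := by
  induction n with
  | zero => simp [hz.map_one]
  | succ n ih => rw [pow_succ, hz, ih, Finset.sum_range_succ]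

/-- for `g` fixing `ω`: `z (g⁻¹) ω = - z g ω`. -/
theorem map_inv_of_fixed (hz : IsCoc51 z) {g : G} {ω : Ω} (h : g • ω = ω) :
    z g⁻¹ ω = - z g ω := by
  rw [hz.map_inv, h]

end IsCoc51

/-! ### sums along the orbit of one element -/

section OrbitSums

variable (g : G) (v : Ω → A)

/-- the sum of `v` over `d` backward steps from `ω`. -/
def stepSum (d : ℕ) (ω : Ω) : A := ∑ k ∈ range d, v ((g ^ k)⁻¹ • ω)

theorem stepSum_zero (ω : Ω) : stepSum g v 0 ω = 0 := by simp [stepSum]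

theorem stepSum_succ (d : ℕ) (ω : Ω) :
    stepSum g v (d + 1) ω = stepSum g v d ω + v ((g ^ d)⁻¹ • ω) := by
  simp [stepSum, Finset.sum_range_succ]

theorem stepSum_add (a b : ℕ) (ω : Ω) :
    stepSum g v (a + b) ω = stepSum g v a ω + stepSum g v b ((g ^ a)⁻¹ • ω) := by
  unfold stepSum
  rw [Finset.sum_range_add]
  congr 1
  refine Finset.sum_congr rfl fun k _ => ?_
  rw [pow_add, mul_inv_rev, mul_smul]

theorem stepSum_mul_of_fixed {p : ℕ} {ω : Ω} (hp : g ^ p • ω = ω) (e : ℕ) :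
    stepSum g v (p * e) ω = e • stepSum g v p ω := by
  have hp' : (g ^ p)⁻¹ • ω = ω := by rw [inv_smul_eq_iff, hp]
  induction e with
  | zero => simp [stepSum_zero]
  | succ e ih =>
    have hfix : (g ^ (p * e))⁻¹ • ω = ω := by
      rw [pow_mul, inv_smul_eq_iff]
      clear ih
      induction e with
      | zero => simp
      | succ e ihe => rw [pow_succ, mul_smul, hp, ← ihe]
    rw [Nat.mul_succ, stepSum_add, ih, hfix, succ_nsmul]

/-- if the sum over ONE period vanishes, then so does the sum over any `d` with `g ^ d • ω = ω`. -/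
theorem stepSum_eq_zero_of_pow_smul_eq {ω : Ω}
    (hper : stepSum g v (MulAction.period g ω) ω = 0) {d : ℕ} (hd : g ^ d • ω = ω) :
    stepSum g v d ω = 0 := by
  obtain ⟨e, rfl⟩ := MulAction.pow_smul_eq_iff_period_dvd.mp hd
  rw [stepSum_mul_of_fixed g v (MulAction.pow_period_smul g ω) e, hper, smul_zero]

end OrbitSums

/-! ### primitives: `ker N_g = range (g - 1)` on a finite permutation module -/

section Primitive

variable [Finite Ω] (g : G) (v : Ω → A)

/-- some positive power of `g` acts trivially on the finite set `Ω`. -/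
theorem exists_pow_smul_eq51 : ∃ m : ℕ, 0 < m ∧ ∀ ω : Ω, g ^ m • ω = ω := by
  classical
  have := Fintype.ofFinite Ω
  refine ⟨orderOf (MulAction.toPermHom G Ω g), orderOf_pos _, fun x => ?_⟩
  have h := pow_orderOf_eq_one (MulAction.toPermHom G Ω g)
  rw [← map_pow] at h
  have h2 := congrArg (fun σ : Equiv.Perm Ω => σ x) h
  simpa using h2

/-- the period of every point of a finite `G`-set is positive. -/
theorem period_pos51 (ω : Ω) : 0 < MulAction.period g ω := by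
  obtain ⟨m, hm, hfix⟩ := exists_pow_smul_eq51 (Ω := Ω) g
  have hdvd := MulAction.pow_smul_eq_iff_period_dvd.mp (hfix ω)
  exact Nat.pos_of_dvd_of_pos hdvd hm

/-- every point of the `⟨g⟩`-orbit of `r` is reached by a NON-NEGATIVE number of backward steps. -/
theorem exists_nat_pow_inv_smul_eq (r ω : Ω)
    (h : ω ∈ MulAction.orbit (Subgroup.zpowers g) r) : ∃ j : ℕ, (g ^ j)⁻¹ • r = ω := by
  obtain ⟨⟨c, hc⟩, rfl⟩ := h
  obtain ⟨i, rfl⟩ := Subgroup.mem_zpowers_iff.mp hc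
  obtain ⟨m, hm, hfix⟩ := exists_pow_smul_eq51 (Ω := Ω) g
  have hm0 : (m : ℤ) ≠ 0 := by exact_mod_cast hm.ne'
  refine ⟨((-i) % (m : ℤ)).toNat, ?_⟩
  have hj : ((((-i) % (m : ℤ)).toNat : ℕ) : ℤ) = (-i) % (m : ℤ) :=
    Int.toNat_of_nonneg (Int.emod_nonneg _ hm0)
  have hsum : ((((-i) % (m : ℤ)).toNat : ℕ) : ℤ) + i = (m : ℤ) * (-((-i) / (m : ℤ))) := by
    have := Int.emod_add_mul_ediv (-i) (m : ℤ)
    rw [hj]; linarith
  have hstab : g ^ m ∈ MulAction.stabilizer G r := MulAction.mem_stabilizer_iff.mpr (hfix r)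
  have hstab2 : (g ^ m) ^ (-((-i) / (m : ℤ))) ∈ MulAction.stabilizer G r :=
    Subgroup.zpow_mem _ hstab _
  show (g ^ ((-i) % (m : ℤ)).toNat)⁻¹ • r = (g ^ i) • r
  rw [inv_smul_eq_iff, ← mul_smul, ← zpow_natCast, ← zpow_add, hsum, zpow_mul, zpow_natCast]
  exact (MulAction.mem_stabilizer_iff.mp hstab2).symm

/-- **`ker N_g = range (g - 1)`**: if the sum of `v` over one period of every point vanishes, then
`v = (g - 1) n` for the action `(g n) ω = n (g⁻¹ • ω)`. Any abelian group of values, fixed points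
allowed. -/
theorem exists_primitive_of_period_sums
    (h0 : ∀ ω, stepSum g v (MulAction.period g ω) ω = 0) :
    ∃ n : Ω → A, ∀ ω, v ω = n (g⁻¹ • ω) - n ω := by
  classical
  -- sums over closed paths vanish
  have hclosed : ∀ (ω : Ω) (d : ℕ), g ^ d • ω = ω → stepSum g v d ω = 0 := fun ω d hd =>
    stepSum_eq_zero_of_pow_smul_eq g v (h0 ω) hd
  -- well-definedness of partial sums
  have hwd0 : ∀ (ρ : Ω) (a d : ℕ), (g ^ a)⁻¹ • ρ = (g ^ (a + d))⁻¹ • ρ →
      stepSum g v (a + d) ρ = stepSum g v a ρ := by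
    intro ρ a d h
    rw [stepSum_add, hclosed _ d, add_zero]
    rw [pow_add, mul_inv_rev, mul_smul] at h
    exact (inv_smul_eq_iff.mp h.symm).symm
  have hwd : ∀ (ρ : Ω) (a b : ℕ), (g ^ a)⁻¹ • ρ = (g ^ b)⁻¹ • ρ →
      stepSum g v a ρ = stepSum g v b ρ := by
    intro ρ a b h
    rcases le_total a b with hab | hab
    · obtain ⟨d, rfl⟩ := Nat.exists_eq_add_of_le hab
      exact (hwd0 ρ a d h).symm
    · obtain ⟨d, rfl⟩ := Nat.exists_eq_add_of_le hab
      exact hwd0 ρ b d h.symm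
  -- orbit representatives
  let s : Setoid Ω := MulAction.orbitRel (Subgroup.zpowers g) Ω
  let r : Ω → Ω := fun ω => Quotient.out (Quotient.mk s ω)
  have hr : ∀ ω, ω ∈ MulAction.orbit (Subgroup.zpowers g) (r ω) := by
    intro ω
    have h1 : s.r (r ω) ω := Quotient.mk_out (s := s) ω
    have h2 : s.r ω (r ω) := s.symm h1
    exact h2
  have hrg : ∀ ω, r (g⁻¹ • ω) = r ω := by
    intro ω
    have h1 : s.r (g⁻¹ • ω) ω := by
      show g⁻¹ • ω ∈ MulAction.orbit (Subgroup.zpowers g) ω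
      exact ⟨⟨g⁻¹, Subgroup.inv_mem _ (Subgroup.mem_zpowers g)⟩, rfl⟩
    show Quotient.out (Quotient.mk s (g⁻¹ • ω)) = Quotient.out (Quotient.mk s ω)
    rw [Quotient.sound (s := s) h1]
  choose j hj using fun ω => exists_nat_pow_inv_smul_eq g (r ω) ω (hr ω)
  refine ⟨fun ω => stepSum g v (j ω) (r ω), fun ω => ?_⟩
  have h1 : (g ^ (j ω + 1))⁻¹ • r ω = g⁻¹ • ω := by
    rw [pow_succ, mul_inv_rev, mul_smul, hj]
  have h2 : (g ^ (j (g⁻¹ • ω)))⁻¹ • r ω = g⁻¹ • ω := by
    rw [← hrg ω]; exact hj (g⁻¹ • ω)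
  have h3 := hwd (r ω) (j (g⁻¹ • ω)) (j ω + 1) (h2.trans h1.symm)
  show v ω = stepSum g v (j (g⁻¹ • ω)) (r (g⁻¹ • ω)) - stepSum g v (j ω) (r ω)
  rw [hrg, h3, stepSum_succ, hj]
  abel

omit [Finite Ω] in
/-- converse: a coboundary `(g - 1) n` has vanishing sums over closed paths. -/
theorem stepSum_sub_eq (n : Ω → A) (d : ℕ) (ω : Ω) :
    stepSum g (fun ω => n (g⁻¹ • ω) - n ω) d ω = n ((g ^ d)⁻¹ • ω) - n ω := by
  induction d with
  | zero => simp [stepSum_zero]
  | succ d ih =>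
    rw [stepSum_succ, ih, pow_succ, mul_inv_rev, mul_smul]
    abel

end Primitive

end Fermat.Agent.S41.PDInst51
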