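/-
S41 / C7c [PD-DICT], concrete instance (helper51) — part 2: `G = SL(2, ℤ)`, `Ω = SL(2, ℤ) ⧸ Γ`
(`Γ` any subgroup containing `-1`; finite index only where stated), `s = S`, `u = S * T`, `t = T`.

* `base Γ`, `stabilizer_base`, `stabEquiv`, `mem_iff_smul_base` : the base point and its stabiliser `Γ`;
* `neg_one_smul51`, `S_mul_S_smul`, `ST_cube_smul`, `closure_S_ST51`, `inv_S_mul_ST` : the hypotheses
  of the abstract (P, s, t)-model;
* `isParabolicHom_iff_conj_T` : Prelude `IsParabolicHom Γ φ` ↔ `φ` kills every `δ T^m δ⁻¹ ∈ Γ`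
  (values in any abelian group without 2-torsion);
* `isParabolicHom_iff_coc`, `isParabolicHom_iff_stepSum`, `isParabolicHom_iff_period`,
  `isParabolicHom_iff_exists_primitive` : for a crossed hom `z` with `φ γ = z γ (base Γ)`,
  `φ` is parabolic ↔ `z (T^m) ω = 0` whenever `T^m ω = ω` ↔ the `T`-orbit sums of `z T` vanish
  ↔ `z T = (T - 1) n` for some `n` (finite index).
-/
import Mathlib
import Fermat.Prelude.Def_ModularCurve_PeriodMap
import Fermat.Agent.S21.ParaClass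
import Fermat.Agent.S41.PDInst51.Coc

set_option autoImplicit false

namespace Fermat.Agent.S41.PDInst51

open scoped MatrixGroups
open ModularCurve.Period

variable (Γ : Subgroup SL(2, ℤ))

/-- the base point `1 · Γ` of the coset space. -/
def base : SL(2, ℤ) ⧸ Γ := ((1 : SL(2, ℤ)) : SL(2, ℤ) ⧸ Γ)

theorem stabilizer_base : MulAction.stabilizer SL(2, ℤ) (base Γ) = Γ :=
  MulAction.stabilizer_quotient Γ

theorem mem_iff_smul_base (g : SL(2, ℤ)) : g ∈ Γ ↔ g • base Γ = base Γ := by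
  rw [← MulAction.mem_stabilizer_iff, stabilizer_base]

/-- the stabiliser of the base point, identified with `Γ`. -/
def stabEquiv : ↥(MulAction.stabilizer SL(2, ℤ) (base Γ)) ≃* ↥Γ :=
  MulEquiv.subgroupCongr (stabilizer_base Γ)

@[simp] theorem coe_stabEquiv (x : ↥(MulAction.stabilizer SL(2, ℤ) (base Γ))) :
    ((stabEquiv Γ x : Γ) : SL(2, ℤ)) = (x : SL(2, ℤ)) := rfl

@[simp] theorem coe_stabEquiv_symm (x : Γ) :
    (((stabEquiv Γ).symm x : ↥(MulAction.stabilizer SL(2, ℤ) (base Γ))) : SL(2, ℤ)) =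
      (x : SL(2, ℤ)) := rfl

theorem exists_smul_base (ω : SL(2, ℤ) ⧸ Γ) : ∃ g : SL(2, ℤ), g • base Γ = ω := by
  induction ω using QuotientGroup.induction_on with
  | H a => exact ⟨a, by rw [base, MulAction.Quotient.smul_mk, smul_eq_mul, mul_one]⟩

variable {Γ}

theorem neg_one_smul51 (hneg : (-1 : SL(2, ℤ)) ∈ Γ) (ω : SL(2, ℤ) ⧸ Γ) :
    (-1 : SL(2, ℤ)) • ω = ω := by
  induction ω using QuotientGroup.induction_on with
  | H a =>
    rw [MulAction.Quotient.smul_mk, smul_eq_mul, eq_comm, QuotientGroup.eq]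
    have : a⁻¹ * (-1 * a) = -1 := by
      rw [neg_mul, one_mul, mul_neg, inv_mul_cancel]
    rw [this]
    exact hneg

theorem S_mul_S_eq51 : (ModularGroup.S * ModularGroup.S : SL(2, ℤ)) = -1 := by decide

theorem ST_cube_eq51 :
    (ModularGroup.S * ModularGroup.T * (ModularGroup.S * ModularGroup.T) *
      (ModularGroup.S * ModularGroup.T) : SL(2, ℤ)) = -1 := by decide

theorem S_mul_S_smul (hneg : (-1 : SL(2, ℤ)) ∈ Γ) (ω : SL(2, ℤ) ⧸ Γ) :
    (ModularGroup.S * ModularGroup.S) • ω = ω := by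
  rw [S_mul_S_eq51]; exact neg_one_smul51 hneg ω

theorem ST_cube_smul (hneg : (-1 : SL(2, ℤ)) ∈ Γ) (ω : SL(2, ℤ) ⧸ Γ) :
    (ModularGroup.S * ModularGroup.T * (ModularGroup.S * ModularGroup.T) *
      (ModularGroup.S * ModularGroup.T)) • ω = ω := by
  rw [ST_cube_eq51]; exact neg_one_smul51 hneg ω

theorem S_smul_S_smul (hneg : (-1 : SL(2, ℤ)) ∈ Γ) (ω : SL(2, ℤ) ⧸ Γ) :
    ModularGroup.S • ModularGroup.S • ω = ω := by
  rw [← mul_smul]; exact S_mul_S_smul hneg ω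

theorem ST_smul_cube (hneg : (-1 : SL(2, ℤ)) ∈ Γ) (ω : SL(2, ℤ) ⧸ Γ) :
    (ModularGroup.S * ModularGroup.T) • (ModularGroup.S * ModularGroup.T) •
      (ModularGroup.S * ModularGroup.T) • ω = ω := by
  rw [← mul_smul, ← mul_smul]; exact ST_cube_smul hneg ω

theorem closure_S_ST51 :
    Subgroup.closure {ModularGroup.S, ModularGroup.S * ModularGroup.T} =
      (⊤ : Subgroup SL(2, ℤ)) := by
  rw [eq_top_iff, ← SpecialLinearGroup.SL2Z_generators, Subgroup.closure_le]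
  have h1 : ModularGroup.S ∈
      Subgroup.closure {ModularGroup.S, ModularGroup.S * ModularGroup.T} :=
    Subgroup.subset_closure (by simp)
  have h2 : ModularGroup.S * ModularGroup.T ∈
      Subgroup.closure {ModularGroup.S, ModularGroup.S * ModularGroup.T} :=
    Subgroup.subset_closure (by simp)
  rintro x (rfl | rfl)
  · exact h1
  · have := Subgroup.mul_mem _ (Subgroup.inv_mem _ h1) h2
    rwa [inv_mul_cancel_left] at this

theorem inv_S_mul_ST : (ModularGroup.S)⁻¹ * (ModularGroup.S * ModularGroup.T) = ModularGroup.T :=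
  inv_mul_cancel_left _ _

theorem neg_one_mem_Gamma0_51 (N : ℕ) : (-1 : SL(2, ℤ)) ∈ CongruenceSubgroup.Gamma0 N := by
  rw [CongruenceSubgroup.Gamma0_mem]
  simp

/-! ### the parabolic condition -/

theorem trace_conj_T_zpow (δ : SL(2, ℤ)) (m : ℤ) :
    ((δ * ModularGroup.T ^ m * δ⁻¹ : SL(2, ℤ)) : Matrix (Fin 2) (Fin 2) ℤ).trace = 2 := by
  rw [Matrix.SpecialLinearGroup.coe_mul, Matrix.trace_mul_comm,
    ← Matrix.SpecialLinearGroup.coe_mul, inv_mul_cancel_left, ModularGroup.coe_T_zpow]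
  simp [Matrix.trace_fin_two]

variable {A : Type*} [AddCommGroup A]

/-- a hom to a group without `2`-torsion kills `-1`. -/
theorem map_neg_one_eq_zero (hneg : (-1 : SL(2, ℤ)) ∈ Γ) (h2 : ∀ a : A, a + a = 0 → a = 0)
    (φ : Additive Γ →+ A) : φ (Additive.ofMul ⟨-1, hneg⟩) = 0 := by
  apply h2
  rw [← map_add, ← ofMul_mul]
  have : (⟨-1, hneg⟩ : Γ) * ⟨-1, hneg⟩ = 1 := by
    apply Subtype.ext
    simp
  rw [this, ofMul_one, map_zero]

/-- **parabolic ⇔ kills the conjugates of powers of `T`.** -/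
theorem isParabolicHom_iff_conj_T (hneg : (-1 : SL(2, ℤ)) ∈ Γ)
    (h2 : ∀ a : A, a + a = 0 → a = 0) (φ : Additive Γ →+ A) :
    IsParabolicHom Γ φ ↔ ∀ (δ : SL(2, ℤ)) (m : ℤ) (h : δ * ModularGroup.T ^ m * δ⁻¹ ∈ Γ),
      φ (Additive.ofMul ⟨δ * ModularGroup.T ^ m * δ⁻¹, h⟩) = 0 := by
  constructor
  · intro hφ δ m h
    apply hφ
    show ((δ * ModularGroup.T ^ m * δ⁻¹ : SL(2, ℤ)) : Matrix (Fin 2) (Fin 2) ℤ).trace ^ 2 = 4
    rw [trace_conj_T_zpow]; norm_num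
  · intro hφ γ hγ
    obtain ⟨δ, m, h | h⟩ := Fermat.Agent.S21.ParaClass.exists_conj_T_zpow (γ : SL(2, ℤ)) hγ
    · have hmem : δ * ModularGroup.T ^ m * δ⁻¹ ∈ Γ := by rw [← h]; exact γ.2
      have := hφ δ m hmem
      have hγeq : γ = ⟨δ * ModularGroup.T ^ m * δ⁻¹, hmem⟩ := Subtype.ext h
      rw [hγeq]; exact this
    · have hmem : δ * ModularGroup.T ^ m * δ⁻¹ ∈ Γ := by
        have h3 : δ * ModularGroup.T ^ m * δ⁻¹ = (-1 : SL(2, ℤ)) * (γ : SL(2, ℤ)) := by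
          rw [h]; simp
        rw [h3]; exact Γ.mul_mem hneg γ.2
      have hγeq : γ = (⟨-1, hneg⟩ : Γ) * ⟨δ * ModularGroup.T ^ m * δ⁻¹, hmem⟩ := by
        apply Subtype.ext
        rw [Subgroup.coe_mul, h]; simp
      rw [hγeq, ofMul_mul, map_add, hφ δ m hmem, map_neg_one_eq_zero hneg h2 φ, add_zero]

variable {z : SL(2, ℤ) → (SL(2, ℤ) ⧸ Γ) → A}

/-- the value of a crossed hom at `T ^ m`, `m : ℤ`, at a point fixed by `T ^ m`, in terms of the
step sums of `z T`. -/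
theorem coc_T_zpow_apply (hz : IsCoc51 z) (ω : SL(2, ℤ) ⧸ Γ) (m : ℤ)
    (hfix : ModularGroup.T ^ m • ω = ω) :
    z (ModularGroup.T ^ m) ω = (if 0 ≤ m then (1 : ℤ) else -1) •
      stepSum ModularGroup.T (z ModularGroup.T) m.natAbs ω := by
  rcases le_or_gt 0 m with hm | hm
  · rw [if_pos hm, one_smul]
    obtain ⟨d, rfl⟩ := Int.eq_ofNat_of_zero_le hm
    rw [zpow_natCast, Int.natAbs_natCast, hz.map_pow_apply]; rfl
  · rw [if_neg (not_le.mpr hm), neg_smul, one_smul]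
    obtain ⟨d, rfl⟩ : ∃ d : ℕ, m = -(d : ℤ) := ⟨m.natAbs, by omega⟩
    rw [zpow_neg, zpow_natCast] at hfix ⊢
    have hfix' : ModularGroup.T ^ d • ω = ω := by
      rw [inv_smul_eq_iff] at hfix; exact hfix.symm
    rw [hz.map_inv_of_fixed hfix', Int.natAbs_neg, Int.natAbs_natCast, hz.map_pow_apply]; rfl

/-- **parabolic ⇔ the crossed hom vanishes at `(T ^ m, ω)` whenever `T ^ m` fixes `ω`.** -/
theorem isParabolicHom_iff_coc (hneg : (-1 : SL(2, ℤ)) ∈ Γ) (h2 : ∀ a : A, a + a = 0 → a = 0)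
    (hz : IsCoc51 z) (φ : Additive Γ →+ A)
    (hφ : ∀ γ : Γ, φ (Additive.ofMul γ) = z (γ : SL(2, ℤ)) (base Γ)) :
    IsParabolicHom Γ φ ↔ ∀ (ω : SL(2, ℤ) ⧸ Γ) (m : ℤ), ModularGroup.T ^ m • ω = ω →
      z (ModularGroup.T ^ m) ω = 0 := by
  rw [isParabolicHom_iff_conj_T hneg h2]
  constructor
  · intro h ω m hfix
    obtain ⟨δ, rfl⟩ : ∃ δ : SL(2, ℤ), δ⁻¹ • base Γ = ω := by
      obtain ⟨g, hg⟩ := exists_smul_base Γ ω
      exact ⟨g⁻¹, by rw [inv_inv]; exact hg⟩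
    have hmem : δ * ModularGroup.T ^ m * δ⁻¹ ∈ Γ := by
      rw [mem_iff_smul_base, mul_smul, mul_smul, hfix, smul_inv_smul]
    have h3 := h δ m hmem
    rw [hφ] at h3
    rw [← hz.conj_apply (ModularGroup.T ^ m) δ (base Γ) hfix]
    exact h3
  · intro h δ m hmem
    rw [hφ]
    have hfix : ModularGroup.T ^ m • (δ⁻¹ • base Γ) = δ⁻¹ • base Γ := by
      have h5 := (mem_iff_smul_base Γ _).mp hmem
      rw [mul_smul, mul_smul] at h5
      exact (eq_inv_smul_iff.mpr h5)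
    show z (δ * ModularGroup.T ^ m * δ⁻¹) (base Γ) = 0
    rw [hz.conj_apply _ _ _ hfix]
    exact h _ m hfix

/-- **parabolic ⇔ the sums of `z T` along closed `T`-paths vanish.** -/
theorem isParabolicHom_iff_stepSum (hneg : (-1 : SL(2, ℤ)) ∈ Γ) (h2 : ∀ a : A, a + a = 0 → a = 0)
    (hz : IsCoc51 z) (φ : Additive Γ →+ A)
    (hφ : ∀ γ : Γ, φ (Additive.ofMul γ) = z (γ : SL(2, ℤ)) (base Γ)) :
    IsParabolicHom Γ φ ↔ ∀ (ω : SL(2, ℤ) ⧸ Γ) (d : ℕ), ModularGroup.T ^ d • ω = ω →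
      stepSum ModularGroup.T (z ModularGroup.T) d ω = 0 := by
  rw [isParabolicHom_iff_coc hneg h2 hz φ hφ]
  constructor
  · intro h ω d hfix
    have h3 := h ω (d : ℤ) (by rw [zpow_natCast]; exact hfix)
    rw [zpow_natCast, hz.map_pow_apply] at h3
    exact h3
  · intro h ω m hfix
    have hfix' : ModularGroup.T ^ m.natAbs • ω = ω := by
      rcases Int.natAbs_eq m with hm | hm
      · rw [hm, zpow_natCast] at hfix
        exact hfix
      · rw [hm, zpow_neg, zpow_natCast, inv_smul_eq_iff] at hfix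
        exact hfix.symm
    rw [coc_T_zpow_apply hz ω m hfix, h ω _ hfix', smul_zero]

/-- **parabolic ⇔ the `T`-orbit sums of `z T` vanish.** -/
theorem isParabolicHom_iff_period (hneg : (-1 : SL(2, ℤ)) ∈ Γ) (h2 : ∀ a : A, a + a = 0 → a = 0)
    (hz : IsCoc51 z) (φ : Additive Γ →+ A)
    (hφ : ∀ γ : Γ, φ (Additive.ofMul γ) = z (γ : SL(2, ℤ)) (base Γ)) :
    IsParabolicHom Γ φ ↔ ∀ ω : SL(2, ℤ) ⧸ Γ,
      stepSum ModularGroup.T (z ModularGroup.T) (MulAction.period ModularGroup.T ω) ω = 0 := by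
  rw [isParabolicHom_iff_stepSum hneg h2 hz φ hφ]
  constructor
  · intro h ω
    exact h ω _ (MulAction.pow_period_smul _ _)
  · intro h ω d hd
    exact stepSum_eq_zero_of_pow_smul_eq _ _ (h ω) hd

/-- **parabolic ⇔ `z T` is a `T`-coboundary** (finite index): `z T = (T - 1) n`. -/
theorem isParabolicHom_iff_exists_primitive [Γ.FiniteIndex] (hneg : (-1 : SL(2, ℤ)) ∈ Γ)
    (h2 : ∀ a : A, a + a = 0 → a = 0)
    (hz : IsCoc51 z) (φ : Additive Γ →+ A)
    (hφ : ∀ γ : Γ, φ (Additive.ofMul γ) = z (γ : SL(2, ℤ)) (base Γ)) :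
    IsParabolicHom Γ φ ↔ ∃ n : (SL(2, ℤ) ⧸ Γ) → A, ∀ ω,
      z ModularGroup.T ω = n ((ModularGroup.T)⁻¹ • ω) - n ω := by
  constructor
  · intro h
    rw [isParabolicHom_iff_period hneg h2 hz φ hφ] at h
    exact exists_primitive_of_period_sums ModularGroup.T (z ModularGroup.T) h
  · rintro ⟨n, hn⟩
    rw [isParabolicHom_iff_stepSum hneg h2 hz φ hφ]
    intro ω d hd
    have hzT : z ModularGroup.T = fun ω => n ((ModularGroup.T)⁻¹ • ω) - n ω := funext hn
    rw [hzT, stepSum_sub_eq, inv_smul_eq_iff.mpr hd.symm, sub_self]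

end Fermat.Agent.S41.PDInst51
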