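/-
S41 / C7c [PD-DICT] (helper51) — part 3: SHAPIRO's lemma in raw form, for a transitive `G`-set `Ω`
with base point `ω₀`, values in any abelian group `A`, crossed homs `IsCoc51`
(`z (g h) ω = z g ω + z h (g⁻¹ • ω)`).

* `isCoc51_cobdry`, `IsCoc51.add/neg/sub`, `isCoc51_zero`;
* `IsCoc51.exists_cobdry_of_ev_eq_zero` (INJECTIVITY): a crossed hom whose evaluation at `ω₀`
  vanishes on the stabiliser of `ω₀` is a coboundary `g ↦ (g - 1) n`;
* `exists_coc_of_hom` (SURJECTIVITY): every hom `φ : Additive Γ →+ A` on `Γ = Stab ω₀` is the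
  evaluation of a crossed hom;
* `stepSum_period_eq_zero_of_pow` : (torsion-free `A`) a vanishing closed-path sum of positive length
  forces the period sum to vanish.
-/
import Mathlib
import Fermat.Agent.S41.PDInst51.Coc

set_option autoImplicit false

namespace Fermat.Agent.S41.PDInst51

variable {G : Type*} [Group G] {Ω : Type*} [MulAction G Ω] {A : Type*} [AddCommGroup A]

theorem isCoc51_zero : IsCoc51 (fun (_ : G) (_ : Ω) => (0 : A)) := by
  intro g h ω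
  simp

/-- coboundaries are crossed homs. -/
theorem isCoc51_cobdry (n : Ω → A) : IsCoc51 (fun (g : G) ω => n (g⁻¹ • ω) - n ω) := by
  intro g h ω
  simp only [mul_inv_rev, mul_smul]
  abel

theorem IsCoc51.add {z z' : G → Ω → A} (hz : IsCoc51 z) (hz' : IsCoc51 z') :
    IsCoc51 (fun g ω => z g ω + z' g ω) := by
  intro g h ω
  simp only [hz g h ω, hz' g h ω]
  abel

theorem IsCoc51.neg {z : G → Ω → A} (hz : IsCoc51 z) : IsCoc51 (fun g ω => - z g ω) := by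
  intro g h ω
  simp only [hz g h ω]
  abel

theorem IsCoc51.sub {z z' : G → Ω → A} (hz : IsCoc51 z) (hz' : IsCoc51 z') :
    IsCoc51 (fun g ω => z g ω - z' g ω) := by
  intro g h ω
  simp only [hz g h ω, hz' g h ω]
  abel

/-- two crossed homs agreeing on a generating set are equal. -/
theorem IsCoc51.ext_of_closure {z z' : G → Ω → A} (hz : IsCoc51 z) (hz' : IsCoc51 z')
    {X : Set G} (hX : Subgroup.closure X = ⊤) (h : ∀ g ∈ X, z g = z' g) : z = z' := by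
  funext g
  have hg : g ∈ Subgroup.closure X := by rw [hX]; trivial
  induction hg using Subgroup.closure_induction with
  | mem x hx => exact h x hx
  | one => funext ω; rw [hz.map_one, hz'.map_one]
  | mul a b _ _ ha hb =>
    funext ω
    rw [hz a b ω, hz' a b ω, ha, hb]
  | inv a _ ha =>
    funext ω
    rw [hz.map_inv, hz'.map_inv, ha]

/-- **Shapiro, injectivity**: a crossed hom vanishing at `(γ, ω₀)` for all `γ` fixing `ω₀` is a
coboundary. -/
theorem IsCoc51.exists_cobdry_of_ev_eq_zero [MulAction.IsPretransitive G Ω] {z : G → Ω → A}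
    (hz : IsCoc51 z) (ω₀ : Ω) (h0 : ∀ γ : G, γ • ω₀ = ω₀ → z γ ω₀ = 0) :
    ∃ n : Ω → A, ∀ g ω, z g ω = n (g⁻¹ • ω) - n ω := by
  have hex : ∀ ω : Ω, ∃ g : G, g • ω₀ = ω := fun ω => MulAction.exists_smul_eq G ω₀ ω
  choose r hr using hex
  have hwd : ∀ (h h' : G) (ω : Ω), h • ω₀ = ω → h' • ω₀ = ω → z h ω = z h' ω := by
    intro h h' ω hh hh'
    have hγ : (h⁻¹ * h') • ω₀ = ω₀ := by rw [mul_smul, hh', ← hh, inv_smul_smul]
    have h1 : z h' ω = z (h * (h⁻¹ * h')) ω := by rw [mul_inv_cancel_left]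
    rw [h1, hz h (h⁻¹ * h') ω, ← hh, inv_smul_smul, h0 _ hγ, add_zero]
  refine ⟨fun ω => - z (r ω) ω, fun g ω => ?_⟩
  have h1 : z (r (g⁻¹ • ω)) (g⁻¹ • ω) = z (g⁻¹ * r ω) (g⁻¹ • ω) :=
    hwd _ _ _ (hr _) (by rw [mul_smul, hr])
  show z g ω = - z (r (g⁻¹ • ω)) (g⁻¹ • ω) - - z (r ω) ω
  rw [h1, hz g⁻¹ (r ω) (g⁻¹ • ω), inv_inv, smul_inv_smul, hz.map_inv g (g⁻¹ • ω), smul_inv_smul]
  abel

/-- **Shapiro, surjectivity**: every additive map on the stabiliser `Γ` of `ω₀` is the evaluation at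
`ω₀` of a crossed hom. -/
theorem exists_coc_of_hom [MulAction.IsPretransitive G Ω] (ω₀ : Ω) (Γ : Subgroup G)
    (hΓ : ∀ g : G, g ∈ Γ ↔ g • ω₀ = ω₀) (φ : Additive Γ →+ A) :
    ∃ z : G → Ω → A, IsCoc51 z ∧ ∀ γ : Γ, z (γ : G) ω₀ = φ (Additive.ofMul γ) := by
  have hex : ∀ ω : Ω, ∃ g : G, g • ω₀ = ω := fun ω => MulAction.exists_smul_eq G ω₀ ω
  choose r hr using hex
  have hmem : ∀ (g : G) (ω : Ω), (r ω)⁻¹ * g * r (g⁻¹ • ω) ∈ Γ := by
    intro g ω
    rw [hΓ, mul_smul, mul_smul, hr, smul_inv_smul, inv_smul_eq_iff, hr]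
  refine ⟨fun g ω => φ (Additive.ofMul ⟨_, hmem g ω⟩), ?_, ?_⟩
  · intro g h ω
    show φ _ = φ _ + φ _
    rw [← map_add, ← ofMul_mul]
    congr 2
    apply Subtype.ext
    simp only [Subgroup.coe_mul, mul_inv_rev, mul_smul]
    group
  · intro γ
    have hγ : (γ : G)⁻¹ • ω₀ = ω₀ := by
      rw [inv_smul_eq_iff]; exact ((hΓ _).mp γ.2).symm
    have hr0 : r ω₀ ∈ Γ := by rw [hΓ, hr]
    have h1 : (⟨(r ω₀)⁻¹ * (γ : G) * r ((γ : G)⁻¹ • ω₀), hmem (γ : G) ω₀⟩ : Γ) =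
        (⟨r ω₀, hr0⟩ : Γ)⁻¹ * γ * ⟨r ω₀, hr0⟩ := by
      apply Subtype.ext
      simp only [Subgroup.coe_mul, Subgroup.coe_inv, hγ]
    show φ (Additive.ofMul ⟨(r ω₀)⁻¹ * (γ : G) * r ((γ : G)⁻¹ • ω₀), hmem (γ : G) ω₀⟩) = _
    rw [h1, ofMul_mul, ofMul_mul, ofMul_inv, map_add, map_add, map_neg]
    abel

/-- (torsion-free values) a vanishing closed-path sum of positive length forces the period sum to
vanish. -/
theorem stepSum_period_eq_zero_of_pow (htf : ∀ (e : ℕ) (a : A), e ≠ 0 → e • a = 0 → a = 0)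
    (g : G) (v : Ω → A) {ω : Ω} {d : ℕ} (hd0 : d ≠ 0) (hd : g ^ d • ω = ω)
    (h : stepSum g v d ω = 0) : stepSum g v (MulAction.period g ω) ω = 0 := by
  obtain ⟨e, rfl⟩ := MulAction.pow_smul_eq_iff_period_dvd.mp hd
  rw [stepSum_mul_of_fixed g v (MulAction.pow_period_smul g ω) e] at h
  refine htf e _ ?_ h
  rintro rfl
  exact hd0 (by simp)

end Fermat.Agent.S41.PDInst51
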