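/-
S41 / C7c [PD-DICT] (helper51) — part 4: THE DICTIONARY between helper3's integral (P, s, t)-model
(`PDModel3`) on `P = SL(2, ℤ) ⧸ Γ` and the Prelude `parabolicHoms ℤ Γ ℤ`.

`Γ ≤ SL(2, ℤ)` with `-1 ∈ Γ` and finite coset space; `datum hneg : PDModel3.Datum (SL(2, ℤ) ⧸ Γ)` with
`s = toPerm S⁻¹`, `t = toPerm (S * T)⁻¹` (helper10's conventions #2957 (C)), so that
`D.S m ω = m (S⁻¹ • ω)`, `D.T m ω = m ((S * T)⁻¹ • ω)`, `D.U m ω = m (T⁻¹ • ω)`.

* `cm hneg m`  : THE crossed hom with `cm S = D.S m - m`, `cm (S * T) = 0` (helper43's landed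
  `Pres43.sl2_existsUnique_crossed_fun_sub`); `cm_add`, `cm_unique`, `cm_T`;
* `evHom hneg m : Additive Γ →+ ℤ`, `γ ↦ cm m γ (base Γ)`; `evAdd` (additive in `m`);
* `evHom_eq_zero_iff`  : `evHom m = 0 ↔ m ∈ D.I = M^S + M^{ST}`;
* `evHom_surjective`   : every `φ : Additive Γ →+ ℤ` is some `evHom m`;
* `mk_mem_L_iff_isParabolicHom` : `[m] ∈ D.L ↔ IsParabolicHom Γ (evHom m)`;
* `homEquiv  : D.B ≃+ (Additive Γ →+ ℤ)`, `homEquiv_mk`;
* **`dictEquiv : D.L ≃+ parabolicHoms ℤ Γ ℤ`**, `dictEquiv_mk`.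
-/
import Mathlib
import Fermat.Prelude.Def_ModularCurve_PeriodMap
import Fermat.Agent.S41.PDModel3.Unimod
import Fermat.Agent.S41.Pres43.Inst
import Fermat.Agent.S41.PDInst51.Inst
import Fermat.Agent.S41.PDInst51.Shapiro

set_option autoImplicit false

namespace Fermat.Agent.S41.PDInst51

open scoped MatrixGroups
open ModularCurve.Period

variable {Γ : Subgroup SL(2, ℤ)}

theorem inv_S_smul_inv_S_smul (hneg : (-1 : SL(2, ℤ)) ∈ Γ) (x : SL(2, ℤ) ⧸ Γ) :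
    (ModularGroup.S)⁻¹ • (ModularGroup.S)⁻¹ • x = x := by
  rw [inv_smul_eq_iff, inv_smul_eq_iff]
  exact (S_smul_S_smul hneg x).symm

theorem S_smul_eq_inv_S_smul (hneg : (-1 : SL(2, ℤ)) ∈ Γ) (x : SL(2, ℤ) ⧸ Γ) :
    ModularGroup.S • x = (ModularGroup.S)⁻¹ • x := by
  rw [eq_inv_smul_iff]
  exact S_smul_S_smul hneg x

theorem inv_ST_smul_cube (hneg : (-1 : SL(2, ℤ)) ∈ Γ) (x : SL(2, ℤ) ⧸ Γ) :
    (ModularGroup.S * ModularGroup.T)⁻¹ • (ModularGroup.S * ModularGroup.T)⁻¹ •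
      (ModularGroup.S * ModularGroup.T)⁻¹ • x = x := by
  rw [inv_smul_eq_iff, inv_smul_eq_iff, inv_smul_eq_iff]
  exact (ST_smul_cube hneg x).symm

/-- helper3's datum for the `SL(2, ℤ)`-set `SL(2, ℤ) ⧸ Γ` (`-1 ∈ Γ`). -/
def datum (hneg : (-1 : SL(2, ℤ)) ∈ Γ) : PDModel3.Datum (SL(2, ℤ) ⧸ Γ) where
  s := MulAction.toPerm ((ModularGroup.S)⁻¹ : SL(2, ℤ))
  t := MulAction.toPerm ((ModularGroup.S * ModularGroup.T)⁻¹ : SL(2, ℤ))
  hs := fun x => inv_S_smul_inv_S_smul hneg x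
  ht := fun x => inv_ST_smul_cube hneg x

section Datum

variable (hneg : (-1 : SL(2, ℤ)) ∈ Γ)
include hneg

theorem datum_S_apply (m : (SL(2, ℤ) ⧸ Γ) → ℤ) (ω : SL(2, ℤ) ⧸ Γ) :
    (datum hneg).S m ω = m ((ModularGroup.S)⁻¹ • ω) := rfl

theorem datum_T_apply (m : (SL(2, ℤ) ⧸ Γ) → ℤ) (ω : SL(2, ℤ) ⧸ Γ) :
    (datum hneg).T m ω = m ((ModularGroup.S * ModularGroup.T)⁻¹ • ω) := rfl

theorem datum_U_apply (m : (SL(2, ℤ) ⧸ Γ) → ℤ) (ω : SL(2, ℤ) ⧸ Γ) :
    (datum hneg).U m ω = m ((ModularGroup.T)⁻¹ • ω) := by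
  show m ((ModularGroup.S * ModularGroup.T)⁻¹ • (ModularGroup.S)⁻¹ • ω) = _
  rw [mul_inv_rev, mul_smul, inv_S_smul_inv_S_smul hneg]

/-! ### the crossed hom `c_m` -/

theorem exists_cm (m : (SL(2, ℤ) ⧸ Γ) → ℤ) :
    ∃! z : SL(2, ℤ) → (SL(2, ℤ) ⧸ Γ) → ℤ,
      (∀ g h ω, z (g * h) ω = z g ω + z h (g⁻¹ • ω)) ∧
      (∀ ω, z ModularGroup.S ω = m ((ModularGroup.S : SL(2, ℤ))⁻¹ • ω) - m ω) ∧
      z (ModularGroup.S * ModularGroup.T) = 0 :=
  Pres43.sl2_existsUnique_crossed_fun_sub (neg_one_smul51 hneg) m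

/-- THE crossed hom with `c_m S = D.S m - m` and `c_m (S * T) = 0`. -/
noncomputable def cm (m : (SL(2, ℤ) ⧸ Γ) → ℤ) : SL(2, ℤ) → (SL(2, ℤ) ⧸ Γ) → ℤ :=
  Classical.choose (exists_cm hneg m).exists

theorem cm_isCoc (m : (SL(2, ℤ) ⧸ Γ) → ℤ) : IsCoc51 (cm hneg m) :=
  (Classical.choose_spec (exists_cm hneg m).exists).1

theorem cm_S (m : (SL(2, ℤ) ⧸ Γ) → ℤ) (ω : SL(2, ℤ) ⧸ Γ) :
    cm hneg m ModularGroup.S ω = m ((ModularGroup.S)⁻¹ • ω) - m ω :=
  (Classical.choose_spec (exists_cm hneg m).exists).2.1 ω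

theorem cm_ST (m : (SL(2, ℤ) ⧸ Γ) → ℤ) :
    cm hneg m (ModularGroup.S * ModularGroup.T) = 0 :=
  (Classical.choose_spec (exists_cm hneg m).exists).2.2

theorem cm_unique (m : (SL(2, ℤ) ⧸ Γ) → ℤ) {z : SL(2, ℤ) → (SL(2, ℤ) ⧸ Γ) → ℤ}
    (hz : IsCoc51 z)
    (hS : ∀ ω, z ModularGroup.S ω = m ((ModularGroup.S)⁻¹ • ω) - m ω)
    (hST : z (ModularGroup.S * ModularGroup.T) = 0) : z = cm hneg m :=
  (exists_cm hneg m).unique ⟨hz, hS, hST⟩
    ⟨cm_isCoc hneg m, cm_S hneg m, cm_ST hneg m⟩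

theorem cm_add (m m' : (SL(2, ℤ) ⧸ Γ) → ℤ) :
    cm hneg (m + m') = fun g ω => cm hneg m g ω + cm hneg m' g ω := by
  symm
  apply cm_unique hneg (m + m') ((cm_isCoc hneg m).add (cm_isCoc hneg m'))
  · intro ω
    show cm hneg m _ ω + cm hneg m' _ ω = _
    rw [cm_S, cm_S, Pi.add_apply, Pi.add_apply]
    ring
  · funext ω
    show cm hneg m _ ω + cm hneg m' _ ω = 0
    rw [cm_ST, cm_ST]
    simp

/-- `c_m T = D.S m - m` as well. -/
theorem cm_T (m : (SL(2, ℤ) ⧸ Γ) → ℤ) (ω : SL(2, ℤ) ⧸ Γ) :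
    cm hneg m ModularGroup.T ω = m ((ModularGroup.S)⁻¹ • ω) - m ω := by
  have hT : (ModularGroup.T : SL(2, ℤ)) =
      (ModularGroup.S)⁻¹ * (ModularGroup.S * ModularGroup.T) := (inv_S_mul_ST).symm
  rw [hT, cm_isCoc hneg m, cm_ST, (cm_isCoc hneg m).map_inv, cm_S, inv_smul_smul,
    S_smul_eq_inv_S_smul hneg]
  simp

/-- on an `S`-invariant function the crossed hom vanishes. -/
theorem cm_eq_zero_of_S_inv {y : (SL(2, ℤ) ⧸ Γ) → ℤ} (hy : (datum hneg).S y = y) :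
    cm hneg y = fun _ _ => 0 := by
  symm
  apply cm_unique hneg y isCoc51_zero
  · intro ω
    have := congrFun hy ω
    rw [datum_S_apply] at this
    rw [this, sub_self]
  · rfl

/-- on an `S * T`-invariant function the crossed hom is the coboundary. -/
theorem cm_eq_cobdry_of_T_inv {z : (SL(2, ℤ) ⧸ Γ) → ℤ} (hz : (datum hneg).T z = z) :
    cm hneg z = fun g ω => z (g⁻¹ • ω) - z ω := by
  symm
  apply cm_unique hneg z (isCoc51_cobdry z)
  · intro ω; rfl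
  · funext ω
    have := congrFun hz ω
    rw [datum_T_apply] at this
    show z ((ModularGroup.S * ModularGroup.T)⁻¹ • ω) - z ω = 0
    rw [this, sub_self]

/-! ### evaluation at the base point -/

omit hneg in
theorem inv_smul_base51 (γ : Γ) : ((γ : SL(2, ℤ)))⁻¹ • base Γ = base Γ := by
  rw [inv_smul_eq_iff]
  exact ((mem_iff_smul_base Γ _).mp γ.2).symm

/-- the hom `γ ↦ c_m γ (base)` on `Γ`. -/
noncomputable def evHom (m : (SL(2, ℤ) ⧸ Γ) → ℤ) : Additive Γ →+ ℤ where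
  toFun γ := cm hneg m ((Additive.toMul γ : Γ) : SL(2, ℤ)) (base Γ)
  map_zero' := (cm_isCoc hneg m).map_one _
  map_add' γ δ := by
    show cm hneg m (((Additive.toMul γ * Additive.toMul δ : Γ)) : SL(2, ℤ)) (base Γ) = _
    rw [Subgroup.coe_mul, cm_isCoc hneg m, inv_smul_base51]

@[simp] theorem evHom_apply (m : (SL(2, ℤ) ⧸ Γ) → ℤ) (γ : Γ) :
    evHom hneg m (Additive.ofMul γ) = cm hneg m (γ : SL(2, ℤ)) (base Γ) := rfl

/-- `m ↦ evHom m` is additive. -/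
noncomputable def evAdd : ((SL(2, ℤ) ⧸ Γ) → ℤ) →+ (Additive Γ →+ ℤ) where
  toFun m := evHom hneg m
  map_zero' := by
    apply AddMonoidHom.ext
    intro γ
    obtain ⟨γ, rfl⟩ := Additive.ofMul.surjective γ
    rw [evHom_apply, cm_eq_zero_of_S_inv hneg (y := 0) (map_zero _)]
    rfl
  map_add' m m' := by
    apply AddMonoidHom.ext
    intro γ
    obtain ⟨γ, rfl⟩ := Additive.ofMul.surjective γ
    rw [AddMonoidHom.add_apply, evHom_apply, evHom_apply, evHom_apply, cm_add]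

@[simp] theorem evAdd_apply (m : (SL(2, ℤ) ⧸ Γ) → ℤ) : evAdd hneg m = evHom hneg m := rfl

/-- **the kernel of `m ↦ evHom m` is `I = M^S + M^{ST}`.** -/
theorem evHom_eq_zero_iff (m : (SL(2, ℤ) ⧸ Γ) → ℤ) :
    evHom hneg m = 0 ↔ m ∈ (datum hneg).I := by
  show _ ↔ ∃ y z, (datum hneg).S y = y ∧ (datum hneg).T z = z ∧ m = y + z
  constructor
  · intro h
    have h0 : ∀ γ : SL(2, ℤ), γ • base Γ = base Γ → cm hneg m γ (base Γ) = 0 := by
      intro γ hγ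
      have hmem : γ ∈ Γ := (mem_iff_smul_base Γ γ).mpr hγ
      have := congrArg (fun φ : Additive Γ →+ ℤ => φ (Additive.ofMul ⟨γ, hmem⟩)) h
      simpa using this
    obtain ⟨n, hn⟩ := (cm_isCoc hneg m).exists_cobdry_of_ev_eq_zero (base Γ) h0
    refine ⟨m - n, n, ?_, ?_, by abel⟩
    · funext ω
      rw [datum_S_apply]
      have h1 := hn ModularGroup.S ω
      rw [cm_S] at h1
      show m _ - n _ = m ω - n ω
      linarith
    · funext ω
      rw [datum_T_apply]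
      have h1 := hn (ModularGroup.S * ModularGroup.T) ω
      rw [cm_ST] at h1
      have h2 : (0 : ℤ) = n ((ModularGroup.S * ModularGroup.T)⁻¹ • ω) - n ω := h1
      linarith
  · rintro ⟨y, z, hy, hz, rfl⟩
    apply AddMonoidHom.ext
    intro γ
    obtain ⟨γ, rfl⟩ := Additive.ofMul.surjective γ
    rw [evHom_apply, cm_add, cm_eq_zero_of_S_inv hneg hy, cm_eq_cobdry_of_T_inv hneg hz]
    show (0 : ℤ) + (z (((γ : SL(2, ℤ)))⁻¹ • base Γ) - z (base Γ)) = 0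
    rw [inv_smul_base51]
    simp

/-! ### surjectivity -/

omit hneg in
theorem S_pow_two_eq51 : (ModularGroup.S : SL(2, ℤ)) ^ 2 = -1 := by decide

omit hneg in
theorem ST_pow_three_eq51 :
    ((ModularGroup.S * ModularGroup.T : SL(2, ℤ))) ^ 3 = -1 := by decide

/-- an integer-valued crossed hom kills `-1` (which acts trivially). -/
theorem coc_neg_one_eq_zero {z : SL(2, ℤ) → (SL(2, ℤ) ⧸ Γ) → ℤ} (hz : IsCoc51 z)
    (ω : SL(2, ℤ) ⧸ Γ) : z (-1) ω = 0 := by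
  have h := hz (-1) (-1) ω
  have h1 : ((-1 : SL(2, ℤ)))⁻¹ • ω = ω := by
    rw [inv_smul_eq_iff]; exact (neg_one_smul51 hneg ω).symm
  rw [h1] at h
  have h2 : ((-1 : SL(2, ℤ)) * (-1)) = 1 := by simp
  rw [h2, hz.map_one] at h
  omega

omit hneg in
theorem int_torsionFree51 : ∀ (e : ℕ) (a : ℤ), e ≠ 0 → e • a = 0 → a = 0 := by
  intro e a he h
  rcases smul_eq_zero.mp h with h | h
  · exact absurd h he
  · exact h

theorem ker_evAdd : (evAdd hneg : _ →+ (Additive Γ →+ ℤ)).ker = (datum hneg).I := by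
  ext m
  rw [AddMonoidHom.mem_ker, evAdd_apply, evHom_eq_zero_iff]

section Surj

variable [Finite (SL(2, ℤ) ⧸ Γ)]

/-- **every hom `Γ → ℤ` is `evHom m` for some `m`.** -/
theorem evHom_surjective (φ : Additive Γ →+ ℤ) : ∃ m, evHom hneg m = φ := by
  obtain ⟨c, hc, hcφ⟩ := exists_coc_of_hom (base Γ) Γ (mem_iff_smul_base Γ) φ
  -- normalise `c (S * T) = 0`
  have h3 : ∀ ω, stepSum (ModularGroup.S * ModularGroup.T)
      (c (ModularGroup.S * ModularGroup.T)) 3 ω = 0 := by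
    intro ω
    have := hc.map_pow_apply (ModularGroup.S * ModularGroup.T) 3 ω
    rw [ST_pow_three_eq51, coc_neg_one_eq_zero hneg hc] at this
    exact this.symm
  have hper : ∀ ω, stepSum (ModularGroup.S * ModularGroup.T)
      (c (ModularGroup.S * ModularGroup.T))
      (MulAction.period (ModularGroup.S * ModularGroup.T) ω) ω = 0 := by
    intro ω
    refine stepSum_period_eq_zero_of_pow int_torsionFree51 _ _ (d := 3) (by norm_num) ?_ (h3 ω)
    rw [ST_pow_three_eq51]; exact neg_one_smul51 hneg ω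
  obtain ⟨n, hn⟩ := exists_primitive_of_period_sums (ModularGroup.S * ModularGroup.T)
    (c (ModularGroup.S * ModularGroup.T)) hper
  have hc' : IsCoc51 (fun g ω => c g ω - (n (g⁻¹ • ω) - n ω)) := hc.sub (isCoc51_cobdry n)
  set c' : SL(2, ℤ) → (SL(2, ℤ) ⧸ Γ) → ℤ := fun g ω => c g ω - (n (g⁻¹ • ω) - n ω) with hc'def
  have hc'ST : c' (ModularGroup.S * ModularGroup.T) = 0 := by
    funext ω
    show c (ModularGroup.S * ModularGroup.T) ω -
      (n ((ModularGroup.S * ModularGroup.T)⁻¹ • ω) - n ω) = 0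
    rw [hn ω, sub_self]
  -- now `c' S` is an `S`-coboundary
  have h2 : ∀ ω, stepSum ModularGroup.S (c' ModularGroup.S) 2 ω = 0 := by
    intro ω
    have := hc'.map_pow_apply ModularGroup.S 2 ω
    rw [S_pow_two_eq51, coc_neg_one_eq_zero hneg hc'] at this
    exact this.symm
  have hper2 : ∀ ω, stepSum ModularGroup.S (c' ModularGroup.S)
      (MulAction.period ModularGroup.S ω) ω = 0 := by
    intro ω
    refine stepSum_period_eq_zero_of_pow int_torsionFree51 _ _ (d := 2) (by norm_num) ?_ (h2 ω)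
    rw [S_pow_two_eq51]; exact neg_one_smul51 hneg ω
  obtain ⟨k, hk⟩ := exists_primitive_of_period_sums ModularGroup.S (c' ModularGroup.S) hper2
  have hck : c' = cm hneg k := cm_unique hneg k hc' hk hc'ST
  refine ⟨k, ?_⟩
  apply AddMonoidHom.ext
  intro γ
  obtain ⟨γ, rfl⟩ := Additive.ofMul.surjective γ
  rw [evHom_apply, ← hck, ← hcφ γ]
  show c (γ : SL(2, ℤ)) (base Γ) - (n (((γ : SL(2, ℤ)))⁻¹ • base Γ) - n (base Γ)) = _
  rw [inv_smul_base51]
  simp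

theorem evAdd_surjective : Function.Surjective (evAdd hneg : _ →+ (Additive Γ →+ ℤ)) :=
  fun φ => evHom_surjective hneg φ

end Surj

/-! ### the parabolic condition and the equivalences -/

variable [Fintype (SL(2, ℤ) ⧸ Γ)] [DecidableEq (SL(2, ℤ) ⧸ Γ)]

/-- **`[m] ∈ L` iff the hom `evHom m` is parabolic.** -/
theorem mk_mem_L_iff_isParabolicHom (m : (SL(2, ℤ) ⧸ Γ) → ℤ) :
    (QuotientAddGroup.mk m : (datum hneg).B) ∈ (datum hneg).L ↔
      IsParabolicHom Γ (evHom hneg m) := by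
  have : Γ.FiniteIndex := Subgroup.finiteIndex_of_finite_quotient
  have h2 : ∀ a : ℤ, a + a = 0 → a = 0 := fun a h => by omega
  rw [isParabolicHom_iff_exists_primitive hneg h2 (cm_isCoc hneg m) (evHom hneg m)
    (fun γ => rfl)]
  show (QuotientAddGroup.mk m : (datum hneg).B) ∈ (datum hneg).J.range ↔ _
  rw [PDModel3.Datum.mk_mem_range_J_iff]
  constructor
  · rintro ⟨r, hr⟩
    refine ⟨r, fun ω => ?_⟩
    have h1 := congrFun hr ω
    rw [Pi.sub_apply, Pi.sub_apply, datum_S_apply, datum_U_apply] at h1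
    rw [cm_T]
    linarith
  · rintro ⟨n, hn⟩
    refine ⟨n, ?_⟩
    funext ω
    have h1 := hn ω
    rw [cm_T] at h1
    rw [Pi.sub_apply, Pi.sub_apply, datum_S_apply, datum_U_apply]
    linarith

/-- **`Hom(Γ, ℤ) = M ⧸ (M^S + M^{ST})`.** -/
noncomputable def homEquiv : (datum hneg).B ≃+ (Additive Γ →+ ℤ) :=
  (QuotientAddGroup.quotientAddEquivOfEq (ker_evAdd hneg).symm).trans
    (QuotientAddGroup.quotientKerEquivOfSurjective (evAdd hneg) (evAdd_surjective hneg))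

omit [DecidableEq (SL(2, ℤ) ⧸ Γ)] in
@[simp] theorem homEquiv_mk (m : (SL(2, ℤ) ⧸ Γ) → ℤ) :
    homEquiv hneg (QuotientAddGroup.mk m : (datum hneg).B) = evHom hneg m := rfl

theorem mem_L_iff_isParabolicHom (b : (datum hneg).B) :
    b ∈ (datum hneg).L ↔ IsParabolicHom Γ (homEquiv hneg b) := by
  obtain ⟨m, rfl⟩ := QuotientAddGroup.mk_surjective b
  rw [homEquiv_mk]
  exact mk_mem_L_iff_isParabolicHom hneg m

/-- **THE DICTIONARY**: helper3's lattice `L` is the Prelude `parabolicHoms ℤ Γ ℤ`. -/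
noncomputable def dictEquiv : (datum hneg).L ≃+ parabolicHoms ℤ Γ ℤ where
  toFun x := ⟨homEquiv hneg x.1, (mem_L_iff_isParabolicHom hneg x.1).mp x.2⟩
  invFun y := ⟨(homEquiv hneg).symm y.1, by
    rw [mem_L_iff_isParabolicHom, AddEquiv.apply_symm_apply]
    exact y.2⟩
  left_inv x := by
    apply Subtype.ext
    simp
  right_inv y := by
    apply Subtype.ext
    simp
  map_add' x y := by
    apply Subtype.ext
    simp

theorem coe_dictEquiv (x : (datum hneg).L) :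
    ((dictEquiv hneg x : parabolicHoms ℤ Γ ℤ) : Additive Γ →+ ℤ) = homEquiv hneg x.1 := rfl

theorem dictEquiv_mk (m : (SL(2, ℤ) ⧸ Γ) → ℤ)
    (hm : (QuotientAddGroup.mk m : (datum hneg).B) ∈ (datum hneg).L) :
    ((dictEquiv hneg ⟨_, hm⟩ : parabolicHoms ℤ Γ ℤ) : Additive Γ →+ ℤ) = evHom hneg m := rfl

theorem coe_dictEquiv_symm (y : parabolicHoms ℤ Γ ℤ) :
    (((dictEquiv hneg).symm y : (datum hneg).L) : (datum hneg).B) =
      (homEquiv hneg).symm y.1 := rfl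

end Datum

end Fermat.Agent.S41.PDInst51
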